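import Fermat.Prelude.Def_FLTPrelim_Modularity
import Mathlib.NumberTheory.ModularForms.Bounds
import Mathlib.NumberTheory.SumPrimeReciprocals

/-!
# A cuspidal eigensystem is not Eisenstein
-/

set_option autoImplicit false

noncomputable section

open CongruenceSubgroup ModularFormClass Filter

namespace Fermat.Agent.NewformLocal

/-- Hecke's bound in weight two. -/
theorem exists_coeff_le {N : ℕ} [NeZero N] (f : CuspForm (Gamma0 N) 2) :
    ∃ C : ℝ, ∀ n : ℕ, 0 < n → ‖qCoeff f n‖ ≤ C * n := by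
  have h := CuspFormClass.qExpansion_isBigO f
  rw [strictWidthInfty_Gamma0] at h
  obtain ⟨C, hC, hb⟩ := Asymptotics.bound_of_isBigO_nat_atTop h
  refine ⟨C, fun n hn => ?_⟩
  have h2 := hb (x := n) (Real.rpow_pos_of_pos (Nat.cast_pos.2 hn) _).ne'
  rwa [show (((2 : ℤ) : ℝ) / 2) = 1 by norm_num, Real.rpow_one, Real.norm_natCast] at h2

/-- Some prime outside a finite set has `a_ℓ ≠ ℓ + 1`. -/
theorem exists_coeff_ne_succ {N : ℕ} [NeZero N] {f : CuspForm (Gamma0 N) 2}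
    (hf : f.IsNormalizedEigenform) (T : Finset ℕ) :
    ∃ ℓ : ℕ, ℓ.Prime ∧ ℓ ∉ T ∧ qCoeff f ℓ ≠ (ℓ : ℂ) + 1 := by
  classical
  by_contra! hall
  obtain ⟨C, hC⟩ := exists_coeff_le f
  -- Otherwise `a_n / n = ∏ (1 + 1/ℓ)` for squarefree `n` prime to `T`; this is bounded, whereas
  -- the sum of the `1/ℓ` diverges.
  have hprod : ∀ s : Finset ℕ, (∀ ℓ ∈ s, ℓ.Prime ∧ ℓ ∉ T) →
      qCoeff f (∏ ℓ ∈ s, ℓ) = ∏ ℓ ∈ s, ((ℓ : ℂ) + 1) := by
    intro s
    induction s using Finset.induction_on with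
    | empty => intro; simpa using hf.qCoeff_one
    | insert a s ha ih =>
      intro hs
      rw [Finset.prod_insert ha, Finset.prod_insert ha, hf.qCoeff_mul_of_coprime,
        hall a (hs a (Finset.mem_insert_self a s)).1 (hs a (Finset.mem_insert_self a s)).2,
        ih fun ℓ hℓ => hs ℓ (Finset.mem_insert_of_mem hℓ)]
      refine Nat.Coprime.prod_right fun ℓ hℓ => (Nat.coprime_primes
        (hs a (Finset.mem_insert_self a s)).1 (hs ℓ (Finset.mem_insert_of_mem hℓ)).1).2 ?_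
      rintro rfl
      exact ha hℓ
  have hsum : ∀ s : Finset ℕ, (∀ ℓ ∈ s, ℓ.Prime ∧ ℓ ∉ T) → ∑ ℓ ∈ s, (1 : ℝ) / ℓ ≤ C := by
    intro s hs
    have hpos : 0 < ∏ ℓ ∈ s, ℓ := Finset.prod_pos fun ℓ hℓ => (hs ℓ hℓ).1.pos
    have h := hC _ hpos
    rw [hprod s hs, norm_prod, Nat.cast_prod] at h
    have e : ∏ ℓ ∈ s, ‖(ℓ : ℂ) + 1‖ = (∏ ℓ ∈ s, (1 + 1 / (ℓ : ℝ))) * ∏ ℓ ∈ s, (ℓ : ℝ) := by
      rw [← Finset.prod_mul_distrib]
      refine Finset.prod_congr rfl fun ℓ hℓ => ?_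
      rw [← Nat.cast_one, ← Nat.cast_add, Complex.norm_natCast, Nat.cast_add, Nat.cast_one, add_mul,
        one_div_mul_cancel (Nat.cast_ne_zero.2 (hs ℓ hℓ).1.ne_zero), one_mul]
    rw [e] at h
    refine le_trans ?_ (le_of_mul_le_mul_right h (Finset.prod_pos fun ℓ hℓ =>
      Nat.cast_pos.2 (hs ℓ hℓ).1.pos))
    have h1 : ∀ u : Finset ℕ,
        (∑ ℓ ∈ u, (1 : ℝ) / ℓ) + 1 ≤ ∏ ℓ ∈ u, (1 + 1 / (ℓ : ℝ)) := by
      intro u
      induction u using Finset.induction_on with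
      | empty => simp
      | insert a u ha ih =>
        rw [Finset.sum_insert ha, Finset.prod_insert ha]
        have ha0 : (0 : ℝ) ≤ 1 / a := by positivity
        have hu0 : (0 : ℝ) ≤ ∑ ℓ ∈ u, (1 : ℝ) / ℓ := Finset.sum_nonneg fun i _ => by positivity
        nlinarith [mul_le_mul_of_nonneg_left ih (by linarith : (0 : ℝ) ≤ 1 + 1 / (a : ℝ))]
    linarith [h1 s]
  refine not_summable_one_div_on_primes (summable_of_sum_le (c := C + ∑ ℓ ∈ T, (1 : ℝ) / ℓ)
    (fun n => Set.indicator_nonneg (fun m _ => by positivity) n) fun u => ?_)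
  calc ∑ n ∈ u, Set.indicator {p | p.Prime} (fun n : ℕ ↦ (1 : ℝ) / n) n
      = ∑ n ∈ u.filter Nat.Prime, (1 : ℝ) / n := by
        rw [Finset.sum_filter]
        exact Finset.sum_congr rfl fun n _ => by simp [Set.indicator_apply]
    _ ≤ ∑ n ∈ (u.filter Nat.Prime \ T) ∪ T, (1 : ℝ) / n := by
        refine Finset.sum_le_sum_of_subset_of_nonneg ?_ fun i _ _ => by positivity
        intro n hn
        by_cases h : n ∈ T
        · exact Finset.mem_union_right _ h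
        · exact Finset.mem_union_left _ (Finset.mem_sdiff.2 ⟨hn, h⟩)
    _ ≤ C + ∑ ℓ ∈ T, (1 : ℝ) / ℓ := by
        rw [Finset.sum_union Finset.sdiff_disjoint]
        refine add_le_add (hsum _ fun ℓ hℓ => ?_) le_rfl
        rw [Finset.mem_sdiff, Finset.mem_filter] at hℓ
        exact ⟨hℓ.1.2, hℓ.2⟩

end Fermat.Agent.NewformLocal
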