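import Fermat.Agent.NewformLocal.Oldness
import Fermat.Agent.NewformLocal.Plane
import Fermat.Agent.GaloisReps.Rep
import Fermat.Agent.NewformLocal.NotEisenstein
import Fermat.Agent.GaloisReps.CoeffExt

/-!
# Frobenius at a prime exactly dividing the level, given the local input on the model

`exists_rep_of_models`, giving S35 from models with the two local inputs:

1. The eigenvalues extend to a character of the full Hecke algebra, vanishing only where the one
   of the newform does (`exists_compatible_char`), over a finite extension of the coefficients;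
   the representation is its eigen part in a model.
2. At good primes the characteristic polynomial of Frobenius is that of the model.
3. At `q` exactly dividing `M` some operator kills the forms of level `M / q` but not the newform
   and some `a_ℓ` is not `ℓ + 1`, so the character is nonzero on `toricOp`; the square of
   Frobenius then has eigenvalues `1` and `q ^ 2` (`ToricSquareAt`), so its polynomial is
   `(X ∓ 1) (X ∓ q)` (`charpoly_frobenius_bad`).
-/

set_option autoImplicit false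

noncomputable section

open Polynomial CongruenceSubgroup ModularFormClass

namespace Fermat.Agent.NewformLocal

open GaloisReps (AbsGal FullHecke HeckeGaloisModel matIn toFull)

variable {N p : ℕ} [NeZero N] [Fact p.Prime]

/-- Inertia at `q` acts unipotently on the model. -/
def UnipotentAt (D : HeckeGaloisModel N p) (q : ℕ) : Prop :=
  ∀ A : ValuationSubring (AlgebraicClosure ℚ), A.LiesOverPrime q →
    ∀ τ ∈ A.inertiaSubgroupIn ℚ, (D.gal τ - 1) ^ 2 = 0

/-- The operator `t * (T_ℓ - ℓ - 1)` in the full Hecke algebra. -/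
def toricOp (t : CuspForm.heckeAlgebra N 2 (levelPrimes N)) {ℓ : ℕ} (hℓ : ℓ.Prime) :
    FullHecke N :=
  toFull _ t * (HeckeDuality.heckeOp N 2 ℓ hℓ - ((ℓ + 1 : ℕ) : FullHecke N))

/-- On the image of a Hecke operator killing level `N / q`, the square of a Frobenius element at
`q` has only the eigenvalues `1` and `q ^ 2`. -/
def ToricSquareAt (D : HeckeGaloisModel N p) (q : ℕ) : Prop :=
  ∀ (R : ℕ) [NeZero R] (hR : R ∣ N), R * q = N →
    ∀ t : CuspForm.heckeAlgebra N 2 (levelPrimes N),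
      (∀ f : CuspForm (Gamma0 R) 2, t.1 (Newforms.levelIncl hR f) = 0) →
        ∀ A : ValuationSubring (AlgebraicClosure ℚ), A.LiesOverPrime q →
          ∀ σ : AbsGal, A.IsFrobeniusAt σ q →
            (D.gal σ * D.gal σ - (q : ℤ_[p]) ^ 2 • 1) * (D.gal σ * D.gal σ - 1) *
              matIn D.hecke ℤ_[p] (toFull (levelPrimes N) t) = 0

/-- Given the toric input at `q`, with `N = R q`, on the eigen-lattice of a system which is nonzero
on an operator `t (T_ℓ - ℓ - 1)`, `t` killing level `R`, the characteristic polynomial of a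
Frobenius element at `q` is `(X ∓ 1) (X ∓ q)`. -/
theorem charpoly_frobenius_bad {O : Type} [CommRing O] [IsDomain O] [IsDiscreteValuationRing O]
    [CharZero O] (D : HeckeGaloisModel N p) (ι : ℤ_[p] →+* O) (θ : FullHecke N →+* O)
    (hp : (p : O) ∈ IsLocalRing.maximalIdeal O) {q R : ℕ} [NeZero R] (hq : q.Prime) (hqp : q ≠ p)
    (hR : R ∣ N) (hRq : R * q = N) (hT : ToricSquareAt D q)
    (t : CuspForm.heckeAlgebra N 2 (levelPrimes N))
    (ht : ∀ f : CuspForm (Gamma0 R) 2, t.1 (Newforms.levelIncl hR f) = 0)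
    {ℓ : ℕ} (hℓ : ℓ.Prime) (hθt : θ (toricOp t hℓ) ≠ 0)
    {A : ValuationSubring (AlgebraicClosure ℚ)}
    (hA : A.LiesOverPrime q) {σ : AbsGal} (hσ : A.IsFrobeniusAt σ q) :
    LinearMap.charpoly (D.eigenAction ι θ σ) = X ^ 2 - C ((q : O) + 1) * X + C (q : O) ∨
      LinearMap.charpoly (D.eigenAction ι θ σ) = X ^ 2 + C ((q : O) + 1) * X + C (q : O) := by
  have hrank := D.finrank_eigenspace_domain θ
  have hθ' : θ (toFull (levelPrimes N) t) ≠ 0 := fun h0 => hθt (by
    rw [toricOp, map_mul, h0, zero_mul])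
  refine charpoly_eq_of_annihilated hrank _ _ (Nat.cast_ne_zero.2 hq.ne_zero)
    (D.det_eigenAction_of_roots ι θ hp fun n ζ hζ => Arith.frobenius_root hA hq hσ hζ
      fun h => hqp ((Nat.prime_dvd_prime_iff_eq hq Fact.out).1 (hq.dvd_of_dvd_pow h))) ?_
  refine LinearMap.ext fun v => Subtype.ext ?_
  have e : ι.mapMatrix ((q : ℤ_[p]) ^ 2 • (1 : Matrix (Fin D.d) (Fin D.d) ℤ_[p])) =
      (q : O) ^ 2 • (1 : Matrix (Fin D.d) (Fin D.d) O) := by
    ext i j
    simp [Matrix.one_apply, apply_ite ι]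
  have h := congrArg (fun X => (ι.mapMatrix X).mulVec v.1) (hT R hR hRq t ht A hA σ hσ)
  simp only [map_zero, map_mul, map_sub, map_one, e, Matrix.zero_mulVec, ← Matrix.mulVec_mulVec,
    RingHom.mapMatrix_apply, D.matIn_map] at h
  rw [(GaloisReps.mem_eigenspace D.hecke θ _).1 v.2 (toFull (levelPrimes N) t),
    Matrix.mulVec_smul, Matrix.mulVec_smul, smul_eq_zero] at h
  have h := h.resolve_left hθ'
  simp only [Module.End.mul_apply, LinearMap.sub_apply, LinearMap.smul_apply,
    Module.End.one_apply, AddSubgroupClass.coe_sub, SetLike.val_smul,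
    HeckeGaloisModel.coe_eigenAction, LinearMap.zero_apply, ZeroMemClass.coe_zero,
    Matrix.sub_mulVec, Matrix.smul_mulVec, Matrix.one_mulVec, ← Matrix.mulVec_mulVec,
    Matrix.mulVec_sub] at h ⊢
  linear_combination (norm := module) h

/-- The eigencharacters of the full and of a partial Hecke algebra agree on the latter. -/
theorem eigenChar_toFull {g : CuspForm (Gamma0 N) 2} (hg : g.IsNormalizedEigenform) (S : Set ℕ)
    (t : CuspForm.heckeAlgebra N 2 S) :
    ConductorLevel.eigenChar hg ∅ (toFull S t) = ConductorLevel.eigenChar hg S t := by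
  simp only [ConductorLevel.eigenChar, RingHom.coe_mk, MonoidHom.coe_mk, OneHom.coe_mk,
    GaloisReps.toFull, Subalgebra.coe_inclusion]

/-- A character extending `f ∘ χ` whose kernel is contained in that of `χ₀`. -/
theorem exists_compatible_char {A B : Type} [CommRing A] [CommRing B] [Module.Finite ℤ B]
    (i : A →+* B) (χ : A →+* ℂ) (χ₀ : B →+* ℂ) (hcomp : ∀ a, χ a = χ₀ (i a))
    {K : Type} [Field K] [IsAlgClosed K] [CharZero K] (f : χ.range →+* K) :
    ∃ θ : B →+* K, (∀ a, θ (i a) = f (χ.rangeRestrict a)) ∧ ∀ b, θ b = 0 → χ₀ b = 0 := by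
  have hfin : Module.Finite ℤ χ₀.range := Module.Finite.of_surjective
    χ₀.rangeRestrict.toAddMonoidHom.toIntLinearMap χ₀.rangeRestrict_surjective
  have hle : χ.range ≤ χ₀.range := by
    rintro _ ⟨a, rfl⟩
    exact ⟨i a, (hcomp a).symm⟩
  let incl : χ.range →+* χ₀.range := Subring.inclusion hle
  have hincl : Function.Injective incl := fun a b h =>
    Subtype.ext (congrArg (fun x : χ₀.range => (x : ℂ)) h)
  obtain ⟨e, he⟩ := GaloisReps.exists_extend_of_int incl hincl f
  have heinj : Function.Injective e := by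
    rw [RingHom.injective_iff_ker_eq_bot]
    refine Ideal.eq_bot_of_comap_eq_bot (R := ℤ) ?_
    rw [RingHom.comap_ker, RingHom.ext_int (e.comp (algebraMap ℤ _)) (Int.castRingHom K),
      ← RingHom.injective_iff_ker_eq_bot]
    exact Int.cast_injective
  refine ⟨e.comp χ₀.rangeRestrict, fun a => ?_, fun b hb => ?_⟩
  · rw [← he (χ.rangeRestrict a)]
    exact congrArg e (Subtype.ext (hcomp a).symm)
  · rw [RingHom.comp_apply, map_eq_zero_iff e heinj] at hb
    exact congrArg Subtype.val hb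

/-- A character of the algebra away from a set containing the primes of the level which has the
Fourier coefficients of `g` as values is the character of `g`. -/
theorem eq_eigenChar_toFull {M : ℕ} [NeZero M] {g : CuspForm (Gamma0 M) 2}
    (hg : g.IsNormalizedEigenform) {S : Finset ℕ}
    (chig : CuspForm.heckeAlgebra M 2 (↑S : Set ℕ) →+* ℂ)
    (hchig : ∀ (ℓ : ℕ) (hℓ : ℓ.Prime) (hℓM : ¬ ℓ ∣ M) (hℓS : ℓ ∉ (↑S : Set ℕ)),
      chig (CuspForm.heckeAlgebra.T hℓ hℓM hℓS) = ModularFormClass.qCoeff g ℓ)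
    (hMS : ∀ q : ℕ, q.Prime → q ∣ M → q ∈ S) (t : CuspForm.heckeAlgebra M 2 (↑S : Set ℕ)) :
    chig t = ConductorLevel.eigenChar hg ∅ (toFull _ t) := by
  obtain ⟨x, hx⟩ := t
  induction hx using Algebra.adjoin_induction with
  | mem y hy =>
    rcases hy with ⟨ℓ, hℓ, hℓM, hℓS, rfl⟩ | ⟨q, hqM, hq, hqS, rfl⟩
    · exact (hchig ℓ hℓ hℓM hℓS).trans
        (ConductorLevel.eigenChar_T hg hℓ hℓM hℓS).symm
    · exact absurd (hMS q hq hqM) hqS
  | algebraMap z =>
    exact RingHom.congr_fun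
      (RingHom.ext_int (chig.comp (algebraMap ℤ _))
        (((ConductorLevel.eigenChar hg ∅).comp (toFull _).toRingHom).comp
        (algebraMap ℤ _))) z
  | add a b ha hb iha ihb =>
    have h := congrArg₂ (· + ·) iha ihb
    rw [← map_add, ← map_add, ← map_add] at h
    exact h
  | mul a b ha hb iha ihb =>
    have h := congrArg₂ (· * ·) iha ihb
    rw [← map_mul, ← map_mul, ← map_mul] at h
    exact h

/-- The character of `g` through `iota` extends to the full Hecke algebra with values in a finite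
extension of the coefficients, vanishing only where the eigencharacter of `g` does. -/
theorem exists_coeff_char {M : ℕ} [NeZero M] {g : CuspForm (Gamma0 M) 2}
    (hg : g.IsNormalizedEigenform) (lam : ℕ) [Fact lam.Prime] (S : Finset ℕ)
    (O' : Type) [CommRing O'] [IsDomain O'] [IsDiscreteValuationRing O']
    [IsAdicComplete (IsLocalRing.maximalIdeal O') O'] [Finite (IsLocalRing.ResidueField O')]
    [CharZero O'] (hlamO' : (lam : O') ∈ IsLocalRing.maximalIdeal O')
    (chig : CuspForm.heckeAlgebra M 2 (↑S : Set ℕ) →+* ℂ)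
    (hchig : ∀ (ℓ : ℕ) (hℓ : ℓ.Prime) (hℓM : ¬ ℓ ∣ M) (hℓS : ℓ ∉ (↑S : Set ℕ)),
      chig (CuspForm.heckeAlgebra.T hℓ hℓM hℓS) = ModularFormClass.qCoeff g ℓ)
    (iota : chig.range →+* O') (hMS : ∀ q : ℕ, q.Prime → q ∣ M → q ∈ S) :
    ∃ (O'' : Type) (_ : CommRing O'') (_ : IsDomain O'') (_ : IsDiscreteValuationRing O'')
      (_ : IsAdicComplete (IsLocalRing.maximalIdeal O'') O'')
      (_ : Finite (IsLocalRing.ResidueField O''))
      (_ : CharZero O'') (_ : Algebra O' O'') (_ : Module.Finite O' O'')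
      (_ : IsLocalHom (algebraMap O' O'')),
      Function.Injective (algebraMap O' O'') ∧ (lam : O'') ∈ IsLocalRing.maximalIdeal O'' ∧
      Nonempty (ℤ_[lam] →+* O'') ∧ ∃ θ' : FullHecke M →+* O'',
        (∀ (ℓ : ℕ) (hℓ : ℓ.Prime) (hℓM : ¬ ℓ ∣ M) (hℓS : ℓ ∉ (↑S : Set ℕ)),
          θ' (HeckeDuality.heckeOp M 2 ℓ hℓ) = algebraMap O' O''
            ((iota.comp chig.rangeRestrict) (CuspForm.heckeAlgebra.T hℓ hℓM hℓS))) ∧
        ∀ b, θ' b = 0 → ConductorLevel.eigenChar hg ∅ b = 0 := by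
  classical
  have : Module.Finite ℤ (FullHecke M) := IntegralStructure.heckeAlgebra_finite M 2 ∅
  set K := AlgebraicClosure (FractionRing O')
  have hK : CharZero K := by
    have : CharZero (FractionRing O') :=
      charZero_of_injective_algebraMap (IsFractionRing.injective O' (FractionRing O'))
    exact charZero_of_injective_algebraMap (algebraMap (FractionRing O') K).injective
  obtain ⟨θ, hθ, hθker⟩ := exists_compatible_char (toFull (↑S : Set ℕ)).toRingHom chig
    (ConductorLevel.eigenChar hg ∅) (eq_eigenChar_toFull hg chig hchig hMS)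
    ((algebraMap O' K).comp iota)
  obtain ⟨O'', i1, i2, i3, i4, i5, i6, i7, i8, i9, j, θ', hinj, hjinj, hcomm, hθ'⟩ :=
    GaloisReps.exists_coeffExt O' θ
  have hpO : (lam : O'') ∈ IsLocalRing.maximalIdeal O'' := by
    rw [← map_natCast (algebraMap O' O'') lam]
    exact map_nonunit (algebraMap O' O'') _ hlamO'
  refine ⟨O'', i1, i2, i3, i4, i5, i6, i7, i8, i9, hinj, hpO, GaloisReps.exists_padicHom O'' hpO,
    θ', fun ℓ hℓ hℓM hℓS => hjinj ?_, fun b hb => hθker b ?_⟩
  · rw [← RingHom.comp_apply j θ', hθ', ← RingHom.comp_apply j, hcomm,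
      ← GaloisReps.toFull_T hℓ hℓM hℓS]
    exact hθ (CuspForm.heckeAlgebra.T hℓ hℓM hℓS)
  · rw [← hθ', RingHom.comp_apply, hb, map_zero]

/-- S35 from models with the two local inputs: a newform has an attached representation, with
Frobenius eigenvalues `±(1, q)` at primes exactly dividing the level. -/
theorem exists_rep_of_models
    (hD : ∀ (N p : ℕ) [NeZero N] [Fact p.Prime], ∃ D : HeckeGaloisModel N p,
      ∀ q : ℕ, q.Prime → q ≠ p → q ∣ N → ¬ q ^ 2 ∣ N → UnipotentAt D q ∧ ToricSquareAt D q)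
    {M : ℕ} [NeZero M] {g : CuspForm (Gamma0 M) 2} (hg : g.IsNewform)
    (lam : ℕ) [Fact lam.Prime] (S : Finset ℕ)
    (O' : Type) [CommRing O'] [IsDomain O'] [IsDiscreteValuationRing O']
    [IsAdicComplete (IsLocalRing.maximalIdeal O') O'] [Finite (IsLocalRing.ResidueField O')]
    [CharZero O'] (hlamO' : (lam : O') ∈ IsLocalRing.maximalIdeal O')
    (chig : CuspForm.heckeAlgebra M 2 (↑S : Set ℕ) →+* ℂ)
    (hchig : ∀ (ℓ : ℕ) (hℓ : ℓ.Prime) (hℓM : ¬ ℓ ∣ M) (hℓS : ℓ ∉ (↑S : Set ℕ)),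
      chig (CuspForm.heckeAlgebra.T hℓ hℓM hℓS) = ModularFormClass.qCoeff g ℓ)
    (iota : chig.range →+* O')
    (hlamS : lam ∈ S) (hMS : ∀ q : ℕ, q.Prime → q ∣ M → q ∈ S) :
    ∃ (O'' : Type) (_ : CommRing O'') (_ : IsDomain O'') (_ : IsDiscreteValuationRing O'')
      (_ : IsAdicComplete (IsLocalRing.maximalIdeal O'') O'')
      (_ : Finite (IsLocalRing.ResidueField O''))
      (_ : CharZero O'') (_ : Algebra O' O'') (_ : Module.Finite O' O'')
      (_ : IsLocalHom (algebraMap O' O'')),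
      Function.Injective (algebraMap O' O'') ∧
      ∃ ρ : GaloisRepAdic O'',
        (∀ (ℓ : ℕ) (hℓ : ℓ.Prime) (hℓM : ¬ ℓ ∣ M) (hℓS : ℓ ∉ (↑S : Set ℕ)),
          ∀ A : ValuationSubring (AlgebraicClosure ℚ), A.LiesOverPrime ℓ →
            ∀ σ : AlgebraicClosure ℚ ≃ₐ[ℚ] AlgebraicClosure ℚ, A.IsFrobeniusAt σ ℓ →
              LinearMap.charpoly (ρ.ρ σ) =
                X ^ 2 - C (algebraMap O' O''
                  ((iota.comp chig.rangeRestrict) (CuspForm.heckeAlgebra.T hℓ hℓM hℓS))) * X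
                  + C ((ℓ : O''))) ∧
        (∀ q : ℕ, q.Prime → q ≠ lam → q ∣ M → ¬ q ^ 2 ∣ M →
          ∀ A : ValuationSubring (AlgebraicClosure ℚ), A.LiesOverPrime q →
            ∀ σ : AlgebraicClosure ℚ ≃ₐ[ℚ] AlgebraicClosure ℚ, A.IsFrobeniusAt σ q →
              LinearMap.charpoly (ρ.ρ σ) = X ^ 2 - C ((q : O'') + 1) * X + C ((q : O'')) ∨
              LinearMap.charpoly (ρ.ρ σ) = X ^ 2 + C ((q : O'') + 1) * X + C ((q : O''))) := by
  classical
  obtain ⟨D, hDq⟩ := hD M lam
  obtain ⟨O'', i1, i2, i3, i4, i5, i6, i7, i8, i9, hinj, hpO, ⟨ι⟩, θ', hθT, hθker⟩ :=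
    exists_coeff_char hg.1 lam S O' hlamO' chig hchig iota hMS
  refine ⟨O'', i1, i2, i3, i4, i5, i6, i7, i8, i9, hinj, D.rep ι θ' hpO, ?_, ?_⟩
  · intro ℓ hℓ hℓM hℓS A hA σ hσ
    have hNp : ¬ ℓ ∣ M * lam := hℓ.not_dvd_mul hℓM fun h' =>
      hℓS (by rw [(Nat.prime_dvd_prime_iff_eq hℓ Fact.out).mp h']; exact hlamS)
    rw [← hθT ℓ hℓ hℓM hℓS]
    exact D.charpoly_eigenAction_frobenius ι θ' hpO hℓ hNp hA hσ
  · intro q hq hqlam hqM hq2 A hA σ hσ
    have hR : M / q ∣ M := Nat.div_dvd_of_dvd hqM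
    have hRq : M / q * q = M := Nat.div_mul_cancel hqM
    have : NeZero (M / q) := ⟨fun h => NeZero.ne M (by rw [← hRq, h, zero_mul])⟩
    -- Some `t` kills the forms of level `M / q` but not `g`, and `a_ℓ ≠ ℓ + 1` for some `ℓ`; so
    -- `θ'` is nonzero on the operator that cuts out the toric part at `q`.
    obtain ⟨t, ht, htg⟩ := exists_killsOld_ne_zero hg hR
      (Nat.div_lt_self (Nat.pos_of_ne_zero (NeZero.ne M)) hq.one_lt).ne
    obtain ⟨ℓ, hℓ, hℓT, hne⟩ := exists_coeff_ne_succ hg.1 (M * lam).primeFactors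
    have hℓN : ¬ ℓ ∣ M * lam := fun h => hℓT (Nat.mem_primeFactors.mpr
      ⟨hℓ, h, mul_ne_zero (NeZero.ne M) (Fact.out : lam.Prime).ne_zero⟩)
    refine charpoly_frobenius_bad D ι θ' hpO hq hqlam hR hRq
      (hDq q hq hqlam hqM hq2).2 t ht hℓ (fun h0 => ?_) hA hσ
    have h2 := hθker _ h0
    rw [toricOp, map_mul, map_sub, map_natCast, eigenChar_toFull, mul_eq_zero] at h2
    have hℓM : ¬ ℓ ∣ M := fun h => hℓN (dvd_mul_of_dvd_left h lam)
    have h3 : ConductorLevel.eigenChar hg.1 ∅ (HeckeDuality.heckeOp M 2 ℓ hℓ) = qCoeff g ℓ := by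
      rw [HeckeDuality.heckeOp, dif_neg hℓM]
      exact ConductorLevel.eigenChar_T hg.1 hℓ hℓM _
    rw [h3, sub_eq_zero, Nat.cast_add, Nat.cast_one] at h2
    exact h2.elim htg hne

end Fermat.Agent.NewformLocal
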