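import Fermat.Agent.GaloisReps.Characters
import Fermat.Agent.ConductorLevel.Eigen
import Fermat.Agent.GaloisReps.LatticeHecke
import Fermat.Agent.Newforms.Newform
import Fermat.Agent.Newforms.Restrict

/-!
# Hecke operators which kill the forms of lower level but not a newform
-/

set_option autoImplicit false

noncomputable section

open CongruenceSubgroup ModularFormClass

namespace Fermat.Agent.NewformLocal

/-- The set of prime divisors of `N`, as a set of excluded primes. -/
abbrev levelPrimes (N : ℕ) : Set ℕ := {p | p ∣ N}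

/-- Every character of the full Hecke algebra has an eigenform. -/
theorem exists_eigen_of_character {R : ℕ} [NeZero R]
    (θ : CuspForm.heckeAlgebra R 2 ∅ →+* ℂ) :
    ∃ f : CuspForm (Gamma0 R) 2, f ≠ 0 ∧
      ∀ t : CuspForm.heckeAlgebra R 2 ∅, t.1 f = θ t • f := by
  obtain ⟨f, hf, hE⟩ := GaloisReps.exists_formEigen θ
  exact ⟨f, hf, (GaloisReps.mem_formEigen θ f).mp (hE ▸ Submodule.mem_span_singleton_self f)⟩

variable {M R : ℕ} [NeZero M] [NeZero R]

/-- For a newform `g` of level `M` and a proper divisor `R` of `M` some Hecke operator away from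
`M` kills the forms coming from level `R` and does not kill `g`. -/
theorem exists_killsOld_ne_zero {g : CuspForm (Gamma0 M) 2} (hg : g.IsNewform) (hR : R ∣ M)
    (hne : R ≠ M) :
    ∃ t : CuspForm.heckeAlgebra M 2 (levelPrimes M),
      (∀ f : CuspForm (Gamma0 R) 2, t.1 (Newforms.levelIncl hR f) = 0) ∧
        ConductorLevel.eigenChar hg.1 (levelPrimes M) t ≠ 0 := by
  classical
  by_contra! hall
  -- Otherwise the eigencharacter of `g` factors through the surjective restriction `r` to level
  -- `R`, so an eigenform of level `R` has the eigenvalues of the newform `g` at good primes.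
  obtain ⟨r, hsurj, hres, hrT⟩ := Newforms.exists_restrictHom_surjective (M := M) (R := R) hR
    (S := levelPrimes M) fun _ _ h => h
  let χ := ConductorLevel.eigenChar hg.1 (levelPrimes M)
  have hker : ∀ t, r t = 0 → χ t = 0 := fun t ht => hall t fun f => by
    simp [hres t f, ht]
  let χR : CuspForm.heckeAlgebra R 2 (levelPrimes M) →+* ℂ :=
    RingHom.liftOfSurjective r hsurj ⟨χ, hker⟩
  obtain ⟨θ, hθ⟩ := GaloisReps.exists_extend_character (levelPrimes M) χR
  obtain ⟨f, hf0, hf⟩ := exists_eigen_of_character θ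
  refine hf0 (Newforms.eq_zero_of_eigen_at_lower_level hg hR hne fun ℓ hℓ hℓM => ?_)
  have hℓR : ¬ ℓ ∣ R := fun h => hℓM (h.trans hR)
  have hc : χR (r (CuspForm.heckeAlgebra.T hℓ hℓM hℓM)) = qCoeff g ℓ :=
    (RingHom.liftOfRightInverse_comp_apply _ _ _ ⟨χ, hker⟩ _).trans
      (ConductorLevel.eigenChar_T hg.1 hℓ hℓM hℓM)
  rw [hrT ℓ hℓ hℓM hℓM, ← hθ, GaloisReps.toFull_T hℓ hℓR hℓM] at hc
  exact (hf (HeckeDuality.heckeOp R 2 ℓ hℓ)).trans (by rw [hc])

end Fermat.Agent.NewformLocal
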