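import Fermat.Agent.GaloisReps.Unramified
import Fermat.Agent.GaloisReps.Models
import Fermat.Agent.NewformLocal.Toric.Model
import Fermat.Agent.Semistable.Main

/-!
# The local behaviour at primes exactly dividing the level

The model of `J₀(N)` at `p` is `modelOfCongruence` at `GaloisReps.eichlerShimuraCongruence N p`, the
Eichler–Shimura relation on the `p`-power torsion away from `N p`. At a prime `q ≠ p` with `q ∥ N`:

* `local_inputs`: on the model of the Tate module inertia at `q` is unipotent and the square of
  Frobenius has eigenvalues `1`, `q ^ 2` on the image of an operator killing level `N / q`.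
* `isUnipotentOnInertiaAt`: inertia is unipotent in any Hecke–Galois datum of level `N`.
* `exists_models`: models with both properties at all such primes.

`Assembly` turns the two properties into the characteristic polynomial of Frobenius at `q` for a
newform.

## References

* P. Deligne and M. Rapoport, *Les schémas de modules de courbes elliptiques* (1973).
* K. Ribet, *On modular representations of `Gal(ℚ̄/ℚ)` arising from modular forms*, §3 (1990).
-/

set_option autoImplicit false

noncomputable section

open IsLocalRing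

namespace Fermat.Agent.NewformLocal

open GaloisReps (eichlerShimuraCongruence modelOfCongruence HeckeGaloisModel)

/-- Both local inputs at a prime exactly dividing the level. -/
theorem local_inputs {N p q : ℕ} [NeZero N] [Fact p.Prime]
    (hq : q.Prime) (hqp : q ≠ p) (hqN : q ∣ N) (hq2 : ¬ q ^ 2 ∣ N) :
    UnipotentAt (modelOfCongruence (eichlerShimuraCongruence N p)) q ∧
      ToricSquareAt (modelOfCongruence (eichlerShimuraCongruence N p)) q :=
  ⟨Semistable.unipotentAt _ hq hqp hqN hq2, Toric.toricSquareAt hq hqp hqN hq2 _⟩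

/-- Inertia is unipotent in a Hecke–Galois datum at a prime exactly dividing the level. -/
theorem isUnipotentOnInertiaAt {𝒪 : Type} [CommRing 𝒪] [IsDomain 𝒪] [IsDiscreteValuationRing 𝒪]
    [IsAdicComplete (maximalIdeal 𝒪) 𝒪]
    {p : ℕ} [Fact p.Prime] (hp𝒪 : (p : 𝒪) ∈ maximalIdeal 𝒪)
    {N : ℕ} [NeZero N] {S : Finset ℕ}
    {θ : CuspForm.heckeAlgebra N 2 (↑S : Set ℕ) →+* ResidueField 𝒪}
    {T : Type} [CommRing T] [IsLocalRing T] [IsNoetherianRing T]
    [IsAdicComplete (maximalIdeal T) T] [Algebra 𝒪 T] [IsLocalHom (algebraMap 𝒪 T)]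
    [Module.Finite 𝒪 T] [Module.Free 𝒪 T]
    (H : CuspForm.HeckeGaloisRepDatum N (↑S : Set ℕ) 𝒪 θ T)
    (q : ℕ) (hq : q.Prime) (hqp : q ≠ p) (hqN : q ∣ N) (hq2 : ¬ q ^ 2 ∣ N) :
    H.ρ.IsUnipotentOnInertiaAt q :=
  GaloisReps.isUnipotentOnInertiaAt_of_model (modelOfCongruence (eichlerShimuraCongruence N p)) hp𝒪
    H q
    hq hqp (local_inputs hq hqp hqN hq2).1

/-- Models with unipotent inertia and toric square at primes exactly dividing
the level. -/
theorem exists_models :
    ∀ (N p : ℕ) [NeZero N] [Fact p.Prime], ∃ D : HeckeGaloisModel N p,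
      ∀ q : ℕ, q.Prime → q ≠ p → q ∣ N → ¬ q ^ 2 ∣ N → UnipotentAt D q ∧ ToricSquareAt D q :=
  fun N p _ _ => ⟨modelOfCongruence (eichlerShimuraCongruence N p), fun _ hq hqp hqN hq2 =>
    local_inputs hq hqp hqN hq2⟩

end Fermat.Agent.NewformLocal

end
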